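import Fermat.Agent.PadicCharacters.Structure
import Fermat.Agent.PadicHodge.Criterion
import Fermat.Agent.PadicHodge.DeRham
import Fermat.Agent.Root.SummaryBDR

/-!
# Hodge–Tate characters are locally algebraic

A character is Hodge–Tate exactly when it is de Rham, and exactly when it is an integral power of
the cyclotomic character on an open subgroup of inertia.
-/

set_option autoImplicit false
set_option linter.unusedSectionVars false

noncomputable section

open Finset FA.TateSen FA.BDR FA.Sen FA.PadicHodge NormedSpace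
open scoped Matrix Matrix.Norms.Elementwise

namespace FA.PadicChar

variable {p : ℕ} [hp : Fact p.Prime]

local notation "Cp" => ℂ_[p]
local notation "G" => PadicAlgCl p ≃ₐ[ℚ_[p]] PadicAlgCl p
local notation "ι" => algebraMap (BPlus p) (BField p)
local notation "M₁" => Matrix Unit Unit ℂ_[p]

/-- The representation of dimension one of a character. -/
def charRep (η : G →* ℚ_[p]) (σ : G) : Matrix Unit Unit ℚ_[p] := Matrix.diagonal fun _ => η σ

theorem isQpRep_charRep {η : G →* ℚ_[p]} (hη : Continuous η) : IsQpRep p Unit (charRep η) where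
  cont := Continuous.matrix_diagonal (continuous_pi fun _ => hη)
  map_one := by simp only [charRep, map_one, Matrix.diagonal_one]
  map_mul σ τ := by simp only [charRep, map_mul, Matrix.diagonal_mul_diagonal]

theorem cpRep_charRep (η : G →* ℚ_[p]) (σ : G) :
    cpRep (charRep η) σ = Matrix.diagonal fun _ => algebraMap ℚ_[p] Cp (η σ) := by
  rw [cpRep, charRep, Matrix.diagonal_map (map_zero _)]

/-- The twist of a character by a power of the cyclotomic character. -/
def twistChar (η : G →* ℚ_[p]) (j : ℤ) : G →* ℚ_[p] where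
  toFun σ := η σ * ((chi p σ : ℤ_[p]) : ℚ_[p]) ^ j
  map_one' := by rw [map_one, map_one, Units.val_one, PadicInt.coe_one, one_zpow, one_mul]
  map_mul' σ τ := by
    rw [map_mul, map_mul, Units.val_mul, PadicInt.coe_mul, mul_zpow]; ring

theorem continuous_twistChar {η : G →* ℚ_[p]} (hη : Continuous η) (j : ℤ) :
    Continuous (twistChar η j) := by
  have h0 : Continuous fun σ : G => (chi p σ : ℤ_[p]) :=
    Units.continuous_val.comp continuous_chi
  exact hη.mul ((continuous_subtype_val.comp h0).zpow₀ j fun σ => Or.inl (chi_ne_zero σ))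

/-- The kernel of a character with finitely many values is open. -/
theorem isOpen_ker_of_finite {η : G →* ℚ_[p]} (hη : Continuous η) {S : Set ℚ_[p]}
    (hS : S.Finite) (h : ∀ σ, η σ ∈ S) : IsOpen (η.ker : Set G) := by
  have e : (η.ker : Set G) = η ⁻¹' (S \ {1})ᶜ := by
    ext σ
    simp only [SetLike.mem_coe, MonoidHom.mem_ker, Set.mem_preimage, Set.mem_compl_iff,
      Set.mem_sdiff, Set.mem_singleton_iff, h σ, true_and, not_not]
  rw [e]
  exact (hS.sdiff (t := {1})).isClosed.isOpen_compl.preimage hη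

theorem finite_roots {d : ℕ} (hd : 0 < d) : {x : ℚ_[p] | x ^ d = 1}.Finite :=
  (Polynomial.finite_setOfPred_isRoot (Polynomial.X_pow_sub_C_ne_zero hd (1 : ℚ_[p]))).subset
    fun x hx => by
      show Polynomial.IsRoot _ x
      rw [Polynomial.IsRoot, Polynomial.eval_sub, Polynomial.eval_pow, Polynomial.eval_X,
        Polynomial.eval_C, sub_eq_zero]
      exact hx

/-- A character killed by a power near the identity has finite order. -/
theorem exists_pow_eq_one_of_open {η : G →* ℚ_[p]} {N : Subgroup G} [N.Normal]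
    (hN : IsOpen (N : Set G)) (h : ∀ σ ∈ N, η σ = 1) : ∃ d, 0 < d ∧ ∀ σ, η σ ^ d = 1 := by
  have := N.quotient_finite_of_isOpen hN
  have : N.FiniteIndex := Subgroup.finiteIndex_of_finite_quotient
  exact ⟨N.index, Nat.pos_of_ne_zero Subgroup.FiniteIndex.index_ne_zero,
    fun σ => by rw [← map_pow, h _ (N.pow_index_mem σ)]⟩

/-- A period in `B_dR` makes a character de Rham. -/
theorem isDeRham_of_period {η : G →* ℚ_[p]} {y : BField p} (hy : y ≠ 0)
    (h : ∀ σ : G, qpB p (η σ) * σ • y = y) : IsDeRham (charRep η) := by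
  obtain ⟨X, hX⟩ : IsUnit (Matrix.diagonal fun _ : Unit => y) :=
    Matrix.isUnit_diagonal.2 (Pi.isUnit_iff.2 fun _ => hy.isUnit)
  refine ⟨X, fun σ => ?_⟩
  rw [hX, charRep, Matrix.diagonal_map (map_zero _), Matrix.diagonal_map (smul_zero σ),
    Matrix.diagonal_mul_diagonal]
  exact congrArg Matrix.diagonal (funext fun _ => h σ)

/-- **A character of finite order has a period that is a unit of `B_dR⁺`.** -/
theorem exists_unit_period_of_pow {η : G →* ℚ_[p]} (hη : Continuous η) {d : ℕ} (hd : 0 < d)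
    (h : ∀ σ, η σ ^ d = 1) : ∃ a : (BPlus p)ˣ, ∀ σ : G, qpHom p (η σ) * σ • (a : BPlus p) = a := by
  have hopen := isOpen_ker_of_finite hη (finite_roots hd) h
  obtain ⟨P, hP⟩ := exists_invariant_of_open (isRep_cpRep (isQpRep_charRep hη)) hopen fun σ hσ => by
    rw [cpRep_charRep, MonoidHom.mem_ker.1 hσ, map_one, Matrix.diagonal_one]
  set c : Cp := (P : M₁) () ()
  have hc : ∀ σ, algebraMap ℚ_[p] Cp (η σ) * gal σ c = c := fun σ => by
    have h1 := congrFun (congrFun (FA.Sen.conj_eq_one_iff.1 (hP σ)) ()) ()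
    rwa [cpRep_charRep, Matrix.diagonal_mul, galM_apply] at h1
  have hc0 : c ≠ 0 := by
    have h1 := ((Matrix.isUnit_iff_isUnit_det _).1 P.isUnit).ne_zero
    rwa [Matrix.det_unique] at h1
  obtain ⟨q, hq⟩ := (Fermat.Agent.AxSenTate.fixed_padicComplex_iff p (c ^ d)).1 fun σ => by
    rw [← gal_apply, map_pow]
    conv_rhs => rw [← hc σ]
    rw [mul_pow, ← map_pow (algebraMap ℚ_[p] Cp), h, map_one, one_mul]
  obtain ⟨c₀, hc₀⟩ := thetaPlus_surjective (p := p) c
  obtain ⟨-, -, -, -, -, hcomp⟩ := FA.Summary.bdr_plus_dvr p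
  have hunit : IsUnit ((d : BPlus p) * c₀ ^ (d - 1)) := isUnit_iff_thetaPlus.2 (by
    rw [map_mul, map_natCast, map_pow, hc₀]
    exact mul_ne_zero (Nat.cast_ne_zero.2 hd.ne') (pow_ne_zero _ hc0))
  obtain ⟨a, ha, ha'⟩ := HenselianRing.is_henselian (I := RingHom.ker (thetaPlus p))
    (Polynomial.X ^ d - Polynomial.C (qpHom p q)) (Polynomial.monic_X_pow_sub_C _ hd.ne') c₀
    (by rw [RingHom.mem_ker, Polynomial.eval_sub, Polynomial.eval_pow, Polynomial.eval_X,
      Polynomial.eval_C, map_sub, map_pow, hc₀, thetaPlus_qpHom, hq, sub_self])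
    (by
      refine IsUnit.map _ ?_
      rw [Polynomial.derivative_sub, Polynomial.derivative_X_pow, Polynomial.derivative_C,
        sub_zero, Polynomial.eval_mul, Polynomial.eval_C, Polynomial.eval_pow, Polynomial.eval_X]
      exact hunit)
  rw [Polynomial.IsRoot, Polynomial.eval_sub, Polynomial.eval_pow, Polynomial.eval_X,
    Polynomial.eval_C, sub_eq_zero] at ha
  rw [RingHom.mem_ker, map_sub, sub_eq_zero, hc₀] at ha'
  obtain ⟨ua, hua⟩ : IsUnit a := isUnit_iff_thetaPlus.2 (by rw [ha']; exact hc0)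
  refine ⟨ua, fun σ => ?_⟩
  rw [hua]
  set w := qpHom p (η σ) * σ • a * (↑ua⁻¹ : BPlus p) with hw
  have hua' : a ^ d * (↑ua⁻¹ : BPlus p) ^ d = 1 := by
    rw [← mul_pow, ← hua, Units.mul_inv, one_pow]
  have hwd : w ^ d = 1 := by
    rw [hw, mul_pow, mul_pow, ← map_pow, h, map_one, one_mul, ← smul_pow', ha, smul_qpHom, ← ha,
      hua']
  have hθ : thetaPlus p (↑ua⁻¹ : BPlus p) * c = 1 := by
    rw [← ha', ← hua, ← map_mul, Units.inv_mul, map_one]
  have hw1 : thetaPlus p w = 1 := by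
    rw [hw, map_mul, map_mul, thetaPlus_qpHom, smul_bplus_def, thetaPlus_bplusGal, ha', hc σ,
      mul_comm, hθ]
  have hgeom : (∑ i ∈ range d, w ^ i) * (w - 1) = 0 := by rw [geom_sum_mul, hwd, sub_self]
  have hsum : ∑ i ∈ range d, w ^ i ≠ 0 := fun h0 => by
    have h1 := congrArg (thetaPlus p) h0
    rw [map_sum, map_zero] at h1
    simp only [map_pow, hw1, one_pow, sum_const, card_range, nsmul_one] at h1
    exact Nat.cast_ne_zero.2 hd.ne' h1
  have h2 : w = 1 := sub_eq_zero.1 ((mul_eq_zero.1 hgeom).resolve_left hsum)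
  rwa [hw, Units.mul_inv_eq_one, hua] at h2

/-- The change of basis by a scalar. -/
theorem conj_charRep_eq {η η' : G →* ℚ_[p]} {P : M₁ˣ} {c : Cp}
    (hP : (P : M₁) = Matrix.diagonal fun _ => c) {σ : G}
    (h : algebraMap ℚ_[p] Cp (η σ) * gal σ c = c * algebraMap ℚ_[p] Cp (η' σ)) :
    FA.Sen.conj (cpRep (charRep η)) P σ = cpRep (charRep η') σ := by
  rw [FA.Sen.conj_eq_iff, hP, cpRep_charRep, cpRep_charRep, galM_diagonal,
    Matrix.diagonal_mul_diagonal, Matrix.diagonal_mul_diagonal]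
  exact congrArg Matrix.diagonal (funext fun _ => h)

/-- `η` is `χ ^ j` on an open subgroup of inertia. -/
def IsLocAlg (η : G →* ℚ_[p]) (j : ℤ) : Prop :=
  ∃ V : Subgroup G, IsOpen (V : Set G) ∧
    ∀ σ ∈ V, σ ∈ inertiaGal p → η σ = ((chi p σ : ℤ_[p]) : ℚ_[p]) ^ j

theorem pow_eq_one_of_isLocAlg {η : G →* ℚ_[p]} (hη : Continuous η) {j : ℤ} (h : IsLocAlg η j) :
    ∃ d, 0 < d ∧ ∀ σ, twistChar (cycPart hη) (-j) σ ^ d = 1 := by
  obtain ⟨V, hV, hVj⟩ := h
  obtain ⟨N, hN, hNo, hNV⟩ := exists_open_normal_subset (hV.mem_nhds V.one_mem)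
  have := N.quotient_finite_of_isOpen hNo
  have : N.FiniteIndex := Subgroup.finiteIndex_of_finite_quotient
  refine ⟨N.index, Nat.pos_of_ne_zero Subgroup.FiniteIndex.index_ne_zero, fun σ => ?_⟩
  have e : twistChar (cycPart hη) (-j) σ = twistChar (cycPart hη) (-j) (inertiaLift σ) := by
    show cycPart hη σ * ((chi p σ : ℤ_[p]) : ℚ_[p]) ^ (-j) =
      cycPart hη (inertiaLift σ) * ((chi p (inertiaLift σ) : ℤ_[p]) : ℚ_[p]) ^ (-j)
    rw [chi_inertiaLift, cycPart_congr hη (chi_inertiaLift σ)]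
  rw [e, ← map_pow]
  have hm : inertiaLift σ ^ N.index ∈ inertiaGal p := pow_mem (inertiaLift_mem σ) _
  show cycPart hη _ * _ = 1
  rw [cycPart_inertia hη hm, hVj _ (hNV _ (N.pow_index_mem _)) hm, ← zpow_add₀ (chi_ne_zero _),
    add_neg_cancel, zpow_zero]

/-- **A locally algebraic character is de Rham.** -/
theorem isDeRham_of_isLocAlg {η : G →* ℚ_[p]} (hη : Continuous η) {j : ℤ} (h : IsLocAlg η j) :
    IsDeRham (charRep η) := by
  obtain ⟨d, hd, hψ⟩ := pow_eq_one_of_isLocAlg hη h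
  obtain ⟨y, hy⟩ := exists_unit_period (continuous_urPart hη) fun σ => urPart_inertia hη
  obtain ⟨a, ha⟩ :=
    exists_unit_period_of_pow (continuous_twistChar (continuous_cycPart hη) (-j)) hd hψ
  obtain ⟨u, hu, -⟩ := exists_tPeriod_eq (p := p)
  set T : BField p := ι (tPeriod p)
  have hT : T ≠ 0 := (map_ne_zero_iff _ iota_injective).2 (by
    rw [hu]; exact mul_ne_zero piMu_ne_zero u.ne_zero)
  have hya : ι ((y : BPlus p) * (a : BPlus p)) ≠ 0 :=
    (map_ne_zero_iff _ iota_injective).2 (mul_ne_zero y.ne_zero a.ne_zero)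
  refine isDeRham_of_period (y := ι ((y : BPlus p) * (a : BPlus p)) * T ^ (-j))
    (mul_ne_zero hya (zpow_ne_zero _ hT)) fun σ => ?_
  set x : ℚ_[p] := ((chi p σ : ℤ_[p]) : ℚ_[p])
  have hx : qpB p x ≠ 0 := (map_ne_zero_iff _ (qpB p).injective).2 (chi_ne_zero σ)
  have hz : σ • T ^ (-j) = qpB p x ^ (-j) * T ^ (-j) := by
    rw [← mul_zpow, ← MulSemiringAction.toRingHom_apply, map_zpow₀,
      MulSemiringAction.toRingHom_apply]
    simp only [T, x, qpB, RingHom.comp_apply, smul_algebraMap_bfield, smul_tPeriod, map_mul]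
  have e : η σ * x ^ (-j) = urPart hη σ * twistChar (cycPart hη) (-j) σ := by
    conv_lhs => rw [← urPart_mul_cycPart hη σ, mul_assoc]
    rfl
  rw [smul_mul', smul_algebraMap_bfield, hz, smul_mul',
    show qpB p (η σ) * (ι (σ • (y : BPlus p) * σ • (a : BPlus p)) * (qpB p x ^ (-j) * T ^ (-j))) =
      qpB p (η σ * x ^ (-j)) * ι (σ • (y : BPlus p) * σ • (a : BPlus p)) * T ^ (-j) by
      simp only [map_mul, map_zpow₀]; ring,
    e, qpB, RingHom.comp_apply, ← map_mul, map_mul (qpHom p)]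
  congr 2
  conv_rhs => rw [← hy σ, ← ha σ]
  ring

/-- The weight of a character: `η = exp (s log χ)` on an open subgroup of inertia. -/
theorem exists_weight {η : G →* ℚ_[p]} (hη : Continuous η) :
    ∃ (s : ℚ_[p]) (n : ℕ),
      IsSenOperator p Unit (cpRep (charRep η)) (Matrix.diagonal fun _ => algebraMap ℚ_[p] Cp s) ∧
      ∀ σ ∈ levelGal p n, ‖s * logChi p σ‖ ≤ rad2 p ∧ cycPart hη σ = exp (s * logChi p σ) := by
  set κ := cycPart hη
  have hκc : Continuous κ := continuous_cycPart hη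
  have hκ1 : ∀ g ∈ (cycInf p).fixingSubgroup, κ g = 1 := fun g hg =>
    (cycPart_congr hη (((mem_fix_cycInf_iff g).1 hg).trans (map_one (chi p)).symm)).trans
      (map_one _)
  obtain ⟨k, hk⟩ := exists_levelGal_subset (W := {σ : G | ‖κ σ - 1‖ < ((p : ℝ) ^ 3)⁻¹})
    (isOpen_lt (hκc.sub continuous_const).norm continuous_const) (fun g hg => by
      show ‖κ g - 1‖ < ((p : ℝ) ^ 3)⁻¹
      rw [hκ1 g hg, sub_self, norm_zero]
      exact inv_pos.2 (pow_pos pR_pos 3)) 2
  set U' : G → M₁ := cpRep (charRep κ)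
  have hU' : IsRep p Unit U' := isRep_cpRep (isQpRep_charRep hκc)
  have hl : IsLevelForm p Unit U' (2 + k) :=
    { le := Nat.le_add_right 2 k
      ker := fun g hg => by
        simp only [U', cpRep_charRep, hκ1 g hg, map_one, Matrix.diagonal_one]
      mem := fun σ i l => (levelC p (2 + k)).algebraMap_mem (charRep κ σ i l)
      small := fun σ hσ => by
        simp only [U', cpRep_charRep]
        rw [← Matrix.diagonal_one, Matrix.diagonal_sub]
        refine norm_diagonal_le (inv_nonneg.2 (pow_nonneg pR_pos.le 3)) fun _ => ?_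
        rw [← map_one (algebraMap ℚ_[p] Cp), ← map_sub, norm_algebraMap']
        exact (hk σ hσ).le }
  obtain ⟨Θ, hΘm, n, hn⟩ := hl.exists_exp hU'
  obtain ⟨s, hs⟩ := (Fermat.Agent.AxSenTate.fixed_padicComplex_iff p (Θ () ())).1 fun σ => by
    have h1 := congrFun (congrFun (mul_galM_of_exp hU' hl hn σ) ()) ()
    simp only [U', cpRep_charRep, Matrix.diagonal_mul, Matrix.mul_diagonal, galM_apply] at h1
    rw [mul_comm (Θ () ())] at h1
    rw [← gal_apply]
    refine mul_left_cancel₀ ?_ h1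
    exact (map_ne_zero_iff _ (algebraMap ℚ_[p] Cp).injective).2
      (norm_ne_zero_iff.1 ((norm_hom_eq_one hκc σ).trans_ne one_ne_zero))
  have hΘ : Θ = Matrix.diagonal fun _ => algebraMap ℚ_[p] Cp s :=
    Matrix.ext fun _ _ => by rw [Matrix.diagonal_apply_eq]; exact hs.symm
  obtain ⟨y, hy⟩ := exists_unit_period (continuous_urPart hη) fun σ => urPart_inertia hη
  obtain ⟨P, hP⟩ : IsUnit (Matrix.diagonal fun _ : Unit => thetaPlus p (y : BPlus p)) :=
    Matrix.isUnit_diagonal.2 (Pi.isUnit_iff.2 fun _ => y.isUnit.map (thetaPlus p))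
  have hconj : FA.Sen.conj (cpRep (charRep η)) P = U' := funext fun σ => conj_charRep_eq hP (by
    have h2 := congrArg (thetaPlus p) (hy σ)
    rw [map_mul, thetaPlus_qpHom, smul_bplus_def, thetaPlus_bplusGal] at h2
    conv_rhs => rw [← h2]
    rw [← urPart_mul_cycPart hη σ, map_mul]
    ring)
  obtain ⟨l, hl'⟩ := exists_small_log (Matrix.diagonal fun _ : Unit => algebraMap ℚ_[p] Cp s : M₁)
    (rad2_pos (p := p)) n
  refine ⟨s, n + l, ⟨P, 2 + k, by rw [hconj]; exact hl, hΘ ▸ hΘm, n + l, fun σ hσ => ?_⟩,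
    fun σ hσ => ?_⟩
  · rw [hconj, hn σ (levelGal_antitone (Nat.le_add_right n l) hσ), hΘ]
  have hsmall : ‖s * logChi p σ‖ ≤ rad2 p := by
    have h1 := (Matrix.norm_entry_le_entrywise_sup_norm _ (i := ()) (j := ())).trans (hl' σ hσ)
    rw [Matrix.smul_apply, Matrix.diagonal_apply_eq, Algebra.smul_def, ← map_mul,
      norm_algebraMap', mul_comm] at h1
    exact h1
  refine ⟨hsmall, (algebraMap ℚ_[p] Cp).injective ?_⟩
  have hv : logChi p σ • (algebraMap ℚ_[p] Cp s) = algebraMap ℚ_[p] Cp (s * logChi p σ) := by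
    rw [Algebra.smul_def, ← map_mul, mul_comm]
  have h1 := congrFun (congrFun (hn σ (levelGal_antitone (Nat.le_add_right n l) hσ)) ()) ()
  rw [hΘ, ← Matrix.diagonal_smul, expM_diagonal (fun _ => by
    rw [Pi.smul_apply, hv, norm_algebraMap']; exact hsmall)] at h1
  simp only [U', cpRep_charRep, Matrix.diagonal_apply_eq, Pi.smul_apply] at h1
  rw [h1, hv, ← algebraMap_exp_comm_of_mem_ball _ (mem_expBall hsmall)]

theorem isSemisimpleInt_scalar_iff {s : ℚ_[p]} :
    IsSemisimpleInt (Matrix.diagonal fun _ : Unit => algebraMap ℚ_[p] Cp s) ↔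
      ∃ j : ℤ, s = j := by
  refine ⟨fun ⟨Q, j, hQ⟩ => ⟨j (), (algebraMap ℚ_[p] Cp).injective ?_⟩, fun ⟨j, hj⟩ => ?_⟩
  · have h1 := congrFun (congrFun hQ ()) ()
    have h2 := congrFun (congrFun Q.mul_inv ()) ()
    rw [Matrix.mul_apply, Fintype.sum_unique, Matrix.mul_diagonal, Matrix.diagonal_apply_eq,
      mul_right_comm] at h1
    rw [Matrix.mul_apply, Fintype.sum_unique, Matrix.one_apply_eq] at h2
    rw [h2, one_mul] at h1
    rw [h1, map_intCast]
  · refine ⟨1, fun _ => j, ?_⟩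
    rw [inv_one, Units.val_one, one_mul, mul_one, hj, map_intCast]

/-- A locally algebraic character has the exponent as weight. -/
theorem weight_eq_of_isLocAlg {η : G →* ℚ_[p]} (hη : Continuous η) {j : ℤ} (h : IsLocAlg η j)
    {s : ℚ_[p]} {n : ℕ}
    (hn : ∀ σ ∈ levelGal p n, ‖s * logChi p σ‖ ≤ rad2 p ∧ cycPart hη σ = exp (s * logChi p σ)) :
    s = j := by
  obtain ⟨d, hd, hψ⟩ := pow_eq_one_of_isLocAlg hη h
  have hψc := continuous_twistChar (continuous_cycPart hη) (-j)
  have hopen := isOpen_ker_of_finite hψc (finite_roots hd) hψ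
  obtain ⟨l, hl⟩ := exists_levelGal_subset hopen (fun g hg => by
    rw [SetLike.mem_coe, MonoidHom.mem_ker]
    show cycPart hη g * _ = 1
    rw [cycPart_congr hη (((mem_fix_cycInf_iff g).1 hg).trans (map_one (chi p)).symm), map_one,
      one_mul, (mem_fix_cycInf_iff g).1 hg, Units.val_one, PadicInt.coe_one, one_zpow]) n
  obtain ⟨k, hk, hexp⟩ := exists_chi_eq_exp (p := p)
  obtain ⟨γ, hγ⟩ := exists_gen (p := p) (m := n + l + k) (by omega)
  set m := n + l + k
  have hmem : γ ∈ levelGal p m := mem_levelGal_gen hγ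
  obtain ⟨hs, he⟩ := hn γ (levelGal_antitone (by omega) hmem)
  obtain ⟨hx, hx'⟩ := hexp γ (levelGal_antitone (by omega) hmem)
  have hsmallj : ‖(j : ℚ_[p]) * logChi p γ‖ ≤ rad2 p := by
    rw [norm_mul]
    exact (mul_le_of_le_one_left (norm_nonneg _) (IsUltrametricDist.norm_intCast_le_one _ _)).trans
      hx
  have h1 : cycPart hη γ = ((chi p γ : ℤ_[p]) : ℚ_[p]) ^ j := by
    have h2 : twistChar (cycPart hη) (-j) γ = 1 :=
      MonoidHom.mem_ker.1 (hl γ (levelGal_antitone (by omega) hmem))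
    change cycPart hη γ * ((chi p γ : ℤ_[p]) : ℚ_[p]) ^ (-j) = 1 at h2
    rwa [zpow_neg, mul_inv_eq_one₀ (zpow_ne_zero _ (chi_ne_zero γ))] at h2
  rw [he, ← hx', ← exp_intCast_mul hx] at h1
  have h3 : exp (s * logChi p γ - (j : ℚ_[p]) * logChi p γ) = 1 := by
    rw [sub_eq_add_neg, exp_add_small (Commute.all _ _) hs (by rwa [norm_neg]), h1,
      exp_neg_mul_self hsmallj]
  set z := s * logChi p γ - (j : ℚ_[p]) * logChi p γ
  have hz : ‖z‖ ≤ rad2 p := (norm_sub_le_ultra _ _).trans (max_le hs hsmallj)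
  have hz0 : z = 0 := by
    refine eq_of_exp_smul_eq (p := p) (y := (0 : ℚ_[p])) 0 fun i _ => ?_
    rw [smul_zero, exp_zero, ← Nat.cast_pow, Nat.cast_smul_eq_nsmul, exp_nsmul_small hz, h3,
      one_pow]
  have h4 : (s - j) * logChi p γ = 0 := by rw [sub_mul]; exact hz0
  exact sub_eq_zero.1 ((mul_eq_zero.1 h4).resolve_right (logChi_gen_ne_zero hγ))

/-- An integral weight gives local algebraicity. -/
theorem isLocAlg_of_weight {η : G →* ℚ_[p]} (hη : Continuous η) {j : ℤ} {n : ℕ}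
    (hn : ∀ σ ∈ levelGal p n, ‖(j : ℚ_[p]) * logChi p σ‖ ≤ rad2 p ∧
      cycPart hη σ = exp ((j : ℚ_[p]) * logChi p σ)) : IsLocAlg η j := by
  obtain ⟨k, -, hexp⟩ := exists_chi_eq_exp (p := p)
  refine ⟨levelGal p (n + k), isOpen_levelGal _, fun σ hσ hI => ?_⟩
  obtain ⟨hx, hx'⟩ := hexp σ (levelGal_antitone (by omega) hσ)
  rw [← cycPart_inertia hη hI, (hn σ (levelGal_antitone (by omega) hσ)).2, exp_intCast_mul hx, hx']

/-- **Hodge–Tate characters are locally algebraic.** -/
theorem isHodgeTate_iff_isLocAlg {η : G →* ℚ_[p]} (hη : Continuous η) :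
    IsHodgeTate (cpRep (charRep η)) ↔ ∃ j, IsLocAlg η j := by
  refine ⟨fun h => ?_, fun ⟨j, hj⟩ => (isDeRham_of_isLocAlg hη hj).isHodgeTate⟩
  obtain ⟨s, n, hS, hn⟩ := exists_weight hη
  obtain ⟨j, rfl⟩ := isSemisimpleInt_scalar_iff.1
    ((isHodgeTate_iff_semisimpleInt (isRep_cpRep (isQpRep_charRep hη)) hS).1 h)
  exact ⟨j, isLocAlg_of_weight hη hn⟩

theorem isDeRham_iff_isLocAlg {η : G →* ℚ_[p]} (hη : Continuous η) :
    IsDeRham (charRep η) ↔ ∃ j, IsLocAlg η j :=
  ⟨fun h => (isHodgeTate_iff_isLocAlg hη).1 h.isHodgeTate,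
    fun ⟨_, hj⟩ => isDeRham_of_isLocAlg hη hj⟩

theorem isLocAlg_unique {η : G →* ℚ_[p]} (hη : Continuous η) {i j : ℤ} (hi : IsLocAlg η i)
    (hj : IsLocAlg η j) : i = j := by
  obtain ⟨s, n, -, hn⟩ := exists_weight hη
  exact Int.cast_injective ((weight_eq_of_isLocAlg hη hi hn).symm.trans
    (weight_eq_of_isLocAlg hη hj hn))

theorem isLocAlg_zero_iff {η : G →* ℚ_[p]} (hη : Continuous η) :
    IsLocAlg η 0 ↔ (η '' (inertiaGal p : Set G)).Finite := by
  refine ⟨fun h => ?_, fun h => ?_⟩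
  · obtain ⟨d, hd, hψ⟩ := pow_eq_one_of_isLocAlg hη h
    refine (finite_roots hd).subset ?_
    rintro _ ⟨σ, hσ, rfl⟩
    have h1 := hψ σ
    change (cycPart hη σ * ((chi p σ : ℤ_[p]) : ℚ_[p]) ^ (-(0 : ℤ))) ^ d = 1 at h1
    rwa [neg_zero, zpow_zero, mul_one, cycPart_inertia hη hσ] at h1
  · refine ⟨(cycPart hη).ker, isOpen_ker_of_finite (continuous_cycPart hη) h
      (fun σ => ⟨inertiaLift σ, inertiaLift_mem σ, rfl⟩), fun σ hσ hI => ?_⟩
    rw [zpow_zero, ← cycPart_inertia hη hI]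
    exact MonoidHom.mem_ker.1 hσ

/-- **`ℂ_p`-admissible characters are the potentially unramified ones.** -/
theorem finrank_dHT_zero_eq_one_iff {η : G →* ℚ_[p]} (hη : Continuous η) :
    Module.finrank ℚ_[p] (dHT (cpRep (charRep η)) 0) = 1 ↔
      (η '' (inertiaGal p : Set G)).Finite := by
  have hU := isRep_cpRep (isQpRep_charRep hη)
  rw [← isLocAlg_zero_iff hη]
  refine ⟨fun h => ?_, fun h => ?_⟩
  · obtain ⟨x, hx0⟩ : ∃ x : dHT (cpRep (charRep η)) 0, x ≠ 0 := by
      by_contra hne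
      push Not at hne
      have : Subsingleton (dHT (cpRep (charRep η)) 0) := ⟨fun a b => (hne a).trans (hne b).symm⟩
      rw [Module.finrank_zero_of_subsingleton] at h
      exact zero_ne_one h
    have hx : (x : Unit → Cp) () ≠ 0 := fun h0 => hx0 (Subtype.ext (funext fun _ => h0))
    obtain ⟨P, hP⟩ : IsUnit (Matrix.diagonal fun _ : Unit => (x : Unit → Cp) ()) :=
      Matrix.isUnit_diagonal.2 (Pi.isUnit_iff.2 fun _ => hx.isUnit)
    have h1 : ∀ σ, FA.Sen.conj (cpRep (charRep η)) P σ = 1 := fun σ => by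
      have h2 := congrFun (mulVec_eq_of_mem_dHT x.2 σ) ()
      rw [cpRep_charRep, Matrix.mulVec_diagonal, neg_zero, twist_zero, one_smul] at h2
      rw [FA.Sen.conj_eq_one_iff, hP, cpRep_charRep, galM_diagonal, Matrix.diagonal_mul_diagonal]
      exact congrArg Matrix.diagonal (funext fun _ => h2)
    obtain ⟨s, n, hS, hn⟩ := exists_weight hη
    have hs : s = ((0 : ℤ) : ℚ_[p]) := by
      have h3 := (hS.eq_zero_iff hU).2 ⟨P, ⊤, isOpen_univ, fun σ _ => h1 σ⟩
      rw [Int.cast_zero]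
      exact (algebraMap ℚ_[p] Cp).injective (by
        simpa using congrFun (congrFun h3 ()) ())
    subst hs
    exact isLocAlg_of_weight hη hn
  · refine le_antisymm (by simpa using (finrank_dHT_le (cpRep (charRep η)) 0).2) ?_
    obtain ⟨P, j, hP⟩ := (isHodgeTate_iff_isLocAlg hη).2 ⟨0, h⟩
    obtain ⟨s, n, hS, hn⟩ := exists_weight hη
    have hs := weight_eq_of_isLocAlg hη h hn
    have hj : j () = 0 := by
      obtain ⟨Q, -, -, hQ⟩ := (isSenOperator_of_conj hP).exists_conj hS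
      have h1 := congrFun (congrFun hQ ()) ()
      have h2 := congrFun (congrFun Q.inv_mul ()) ()
      rw [Matrix.mul_apply, Fintype.sum_unique, Matrix.mul_diagonal, Matrix.diagonal_apply_eq,
        mul_right_comm] at h1
      rw [Matrix.mul_apply, Fintype.sum_unique, Matrix.one_apply_eq] at h2
      rw [h2, one_mul, hs, Int.cast_zero, map_zero] at h1
      exact Int.cast_eq_zero.1 h1.symm
    have hmem : (fun i => (P : M₁) i ()) ∈ dHT (cpRep (charRep η)) 0 := fun σ => funext fun i => by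
      have h1 := congrFun (congrFun (conj_eq_iff.1 (hP σ)) i) ()
      rw [Matrix.mul_diagonal, hj, twist_zero, mul_one] at h1
      change twist p 0 σ * (cpRep (charRep η) σ * galM σ (P : M₁)) i () = _
      rw [twist_zero, one_mul, h1]
    refine Nat.succ_le_of_lt (Module.finrank_pos_iff_exists_ne_zero.2 ⟨⟨_, hmem⟩, fun h0 => ?_⟩)
    have h1 := ((Matrix.isUnit_iff_isUnit_det _).1 P.isUnit).ne_zero
    rw [Matrix.det_unique] at h1
    exact h1 (congrFun (congrArg Subtype.val h0) _)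

end FA.PadicChar
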