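import Fermat.Agent.PadicCharacters.Residue
import Fermat.Agent.BDR.Invariants
import Fermat.Agent.FontaineWintenberger.AlgClosed
import Mathlib.RingTheory.WittVector.FrobeniusFractionField
import Mathlib.FieldTheory.AlgebraicClosure

/-!
# Periods of unramified characters

An unramified character has a period in the Witt vectors of the algebraic closure of `𝔽_p` inside
`A_inf`: a solution of `φ y = u y`.
-/

set_option autoImplicit false
set_option linter.unusedSectionVars false

noncomputable section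

open Finset UniformSpace FA.TateSen FA.BDR FA.FontaineWintenberger

namespace FA.PadicChar

variable {p : ℕ} [hp : Fact p.Prime]

local notation "Cp" => ℂ_[p]
local notation "Ω" => PadicAlgCl p
local notation "G" => PadicAlgCl p ≃ₐ[ℚ_[p]] PadicAlgCl p

instance flatAlgebraZMod : Algebra (ZMod p) (Flat p) := ZMod.algebra _ p

variable (p) in
/-- The algebraic closure of the prime field in the tilt. -/
abbrev KBar : IntermediateField (ZMod p) (Flat p) := algebraicClosure (ZMod p) (Flat p)

instance isAlgClosed_kbar : IsAlgClosed (KBar p) := IsAlgClosure.isAlgClosed (ZMod p)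

instance charP_kbar : CharP (KBar p) p :=
  charP_of_injective_algebraMap (algebraMap (ZMod p) (KBar p)).injective p

theorem exists_pow_eq_one {x : KBar p} (hx : x ≠ 0) : ∃ n, 0 < n ∧ x ^ ordUr p n = 1 := by
  have hint : IsIntegral (ZMod p) x := Algebra.IsIntegral.isIntegral x
  set E := IntermediateField.adjoin (ZMod p) {x}
  have : FiniteDimensional (ZMod p) E := IntermediateField.adjoin.finiteDimensional hint
  have : Finite E := Module.finite_of_finite (ZMod p)
  have : Fintype E := Fintype.ofFinite E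
  refine ⟨Module.finrank (ZMod p) E, Module.finrank_pos, ?_⟩
  set xE : E := ⟨x, IntermediateField.mem_adjoin_simple_self _ x⟩
  have h := FiniteField.pow_card_sub_one_eq_one xE (fun h => hx (congrArg Subtype.val h))
  rw [Module.card_eq_pow_finrank (K := ZMod p) (V := E), ZMod.card] at h
  exact congrArg Subtype.val h

theorem norm_kbar_le (x : KBar p) : ‖((x : Flat p))‖ ≤ 1 := by
  rcases eq_or_ne x 0 with rfl | hx
  · rw [ZeroMemClass.coe_zero, norm_zero]; exact zero_le_one
  obtain ⟨n, hn, h⟩ := exists_pow_eq_one hx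
  have h1 := congrArg (fun a : KBar p => ‖(a : Flat p)‖) h
  simp only [SubmonoidClass.coe_pow, norm_pow, OneMemClass.coe_one, norm_one] at h1
  exact ((pow_eq_one_iff_of_nonneg (norm_nonneg _) (ordUr_pos hn).ne').1 h1).le

variable (p) in
/-- It lies in the perfection of the integers modulo `p`. -/
def kbarHom : KBar p →+* OFlat p where
  toFun x := ofFlat (x : Flat p) (norm_kbar_le x)
  map_one' := toFlat_injective (by rw [toFlat_ofFlat, map_one]; rfl)
  map_mul' x y := toFlat_injective (by simp only [map_mul, toFlat_ofFlat]; rfl)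
  map_zero' := toFlat_injective (by rw [toFlat_ofFlat, map_zero]; rfl)
  map_add' x y := toFlat_injective (by simp only [map_add, toFlat_ofFlat]; rfl)

theorem toFlat_kbarHom (x : KBar p) : toFlat (kbarHom p x) = (x : Flat p) :=
  toFlat_ofFlat (x : Flat p) (norm_kbar_le x)

theorem exists_root_of_pow_eq_one {w : Cp} {N : ℕ} (hN : 0 < N) (hw : w ^ N = 1) :
    ∃ z : Ω, z ^ N = 1 ∧ (z : Cp) = w := by
  obtain ⟨z, hz⟩ := exists_primitive_ur (p := p) hN
  have hz' := hz.map_of_injective (f := (Completion.coeRingHom : Ω →+* Cp))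
    (Completion.coe_injective Ω)
  have : NeZero N := ⟨hN.ne'⟩
  obtain ⟨i, -, rfl⟩ := hz'.eq_pow_of_pow_eq_one hw
  exact ⟨z ^ i, by rw [← pow_mul, mul_comm, pow_mul, hz.pow_eq_one, one_pow],
    map_pow Completion.coeRingHom z i⟩

/-- The Galois group acts on the algebraic closure of `𝔽_p` by powers of the Frobenius. -/
theorem exists_kbar_action {φ : G}
    (hφ : ∀ (N : ℕ) (z : Ω), ¬ p ∣ N → z ^ N = 1 → φ z = z ^ p) (x : KBar p) :
    ∃ k₀, ∀ k, k₀ ≤ k → ∀ (σ : G) (a : ℕ), (φ ^ a)⁻¹ * σ ∈ urGal p k →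
      oflatGal σ (kbarHom p x) = kbarHom p x ^ p ^ a := by
  rcases eq_or_ne x 0 with rfl | hx
  · refine ⟨0, fun k _ σ a _ => ?_⟩
    rw [map_zero, map_zero, zero_pow (pow_ne_zero _ hp.out.ne_zero)]
  obtain ⟨n, hn, h⟩ := exists_pow_eq_one hx
  refine ⟨n, fun k hk σ a hσ => toFlat_injective ?_⟩
  rw [toFlat_oflatGal, map_pow, toFlat_kbarHom]
  refine seq_injective (funext fun j => ?_)
  obtain ⟨c, hc⟩ := ordUr_dvd (p := p) (Nat.dvd_factorial hn hk)
  have hN : 0 < ordUr p k.factorial := ordUr_pos k.factorial_pos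
  have hpow : ∀ (y : Flat p) (e : ℕ), (y ^ e).seq j = y.seq j ^ e := fun y e => by
    induction e with
    | zero => rw [pow_zero, pow_zero, seq_one]
    | succ e ih => rw [pow_succ, pow_succ, seq_mul, ih]
  have hw : ((x : Flat p).seq j) ^ ordUr p k.factorial = 1 := by
    rw [← hpow, show (x : Flat p) ^ ordUr p k.factorial = 1 by
      rw [← SubmonoidClass.coe_pow, hc, pow_mul, h, one_pow, OneMemClass.coe_one], seq_one]
  obtain ⟨z, hz, hzw⟩ := exists_root_of_pow_eq_one hN hw
  rw [flatGal_seq, hpow, ← hzw, gal_coe]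
  have hσz : σ z = z ^ p ^ a := by
    rw [← pow_frobenius_apply hφ (not_dvd_ordUr k.factorial_pos) hz a]
    conv_lhs => rw [show σ = φ ^ a * ((φ ^ a)⁻¹ * σ) from (mul_inv_cancel_left _ _).symm]
    rw [AlgEquiv.mul_apply, mem_urGal.1 hσ z hz]
  rw [hσz]
  exact map_pow Completion.coeRingHom z _

theorem frobenius_zpHom (c : ℤ_[p]) : WittVector.frobenius (zpHom p c) = zpHom p c := by
  refine WittVector.ext fun n => ?_
  rw [WittVector.coeff_frobenius_charP, zpHom, RingHom.comp_apply, WittVector.map_coeff,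
    ← map_pow, ZMod.pow_card]

/-- **A solution of `φ y = u y`**, with the action of the Galois group on its components. -/
theorem exists_witt_period {φ : G}
    (hφ : ∀ (N : ℕ) (z : Ω), ¬ p ∣ N → z ^ N = 1 → φ z = z ^ p) (u : ℤ_[p]ˣ) :
    ∃ y : AInf p, IsUnit y ∧ WittVector.frobenius y = zpHom p u * y ∧
      ∀ m, ∃ k₀, ∀ k, k₀ ≤ k → ∀ (σ : G) (a : ℕ), (φ ^ a)⁻¹ * σ ∈ urGal p k →
        ∀ j < m, (ainfGal σ y).coeff j = y.coeff j ^ p ^ a := by
  set e : ℤ_[p] →+* WittVector p (KBar p) := (WittVector.map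
    (ZMod.castHom dvd_rfl (KBar p))).comp (WittVector.equiv p).symm.toRingHom
  have he : ∀ c, WittVector.map (kbarHom p) (e c) = zpHom p c := fun c => WittVector.ext fun n => by
    simp only [e, zpHom, RingHom.comp_apply, WittVector.map_coeff]
    exact RingHom.congr_fun (RingHom.ext_zmod ((kbarHom p).comp (ZMod.castHom dvd_rfl (KBar p)))
      (ZMod.castHom dvd_rfl (OFlat p))) _
  have h1 : (1 : WittVector p (KBar p)).coeff 0 ≠ 0 := by
    rw [WittVector.one_coeff_zero]; exact one_ne_zero
  have h2 : (e u).coeff 0 ≠ 0 := by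
    have h := congrArg (fun x => WittVector.constantCoeff x)
      (show e u * e (u⁻¹ : ℤ_[p]ˣ) = 1 by rw [← map_mul, Units.mul_inv, map_one])
    simp only [map_mul, map_one] at h
    exact left_ne_zero_of_mul_eq_one h
  set r := WittVector.frobeniusRotation p h1 h2
  have hr : IsUnit r := WittVector.isUnit_of_coeff_zero_ne_zero r (by
    show WittVector.frobeniusRotationCoeff p h1 h2 0 ≠ 0
    rw [WittVector.frobeniusRotationCoeff]
    exact WittVector.RecursionBase.solution_nonzero p h1 h2)
  refine ⟨WittVector.map (kbarHom p) r, hr.map _, ?_, fun m => ?_⟩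
  · have h := WittVector.frobenius_frobeniusRotation p h1 h2
    rw [mul_one, mul_comm] at h
    rw [← he, ← map_mul, ← h]
    refine WittVector.ext fun n => ?_
    rw [WittVector.coeff_frobenius_charP, WittVector.map_coeff, WittVector.map_coeff,
      WittVector.coeff_frobenius_charP, map_pow]
  · choose k₀ hk₀ using fun j => exists_kbar_action hφ (r.coeff j)
    refine ⟨(range m).sup k₀, fun k hk σ a hσ j hj => ?_⟩
    rw [ainfGal, WittVector.map_coeff, WittVector.map_coeff]
    exact hk₀ j k ((le_sup (mem_range.2 hj)).trans hk) σ a hσ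

/-- The values of a continuous character are units. -/
theorem norm_hom_eq_one {η : G →* ℚ_[p]} (hη : Continuous η) (σ : G) : ‖η σ‖ = 1 := by
  obtain ⟨B, hB⟩ := (isCompact_range hη.norm).bddAbove
  have hle : ∀ τ : G, ‖η τ‖ ≤ 1 := fun τ => by
    by_contra hgt
    rw [not_le] at hgt
    obtain ⟨n, hn⟩ := pow_unbounded_of_one_lt B hgt
    exact absurd (hB ⟨τ ^ n, rfl⟩) (not_le.2 (by simpa [map_pow, norm_pow] using hn))
  refine le_antisymm (hle σ) ?_
  have h1 : ‖η σ‖ * ‖η σ⁻¹‖ = 1 := by rw [← norm_mul, ← map_mul, mul_inv_cancel, map_one, norm_one]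
  nlinarith [hle σ⁻¹, norm_nonneg (η σ)]

theorem qpHom_coe (c : ℤ_[p]) : qpHom p (c : ℚ_[p]) = zpPlus p c :=
  IsLocalization.lift_eq (M := nonZeroDivisors ℤ_[p]) (isUnit_zpPlus (p := p)) c

/-- **An unramified character has a period that is a unit of `B_dR⁺`.** -/
theorem exists_unit_period {η : G →* ℚ_[p]} (hη : Continuous η)
    (hI : ∀ σ ∈ inertiaGal p, η σ = 1) :
    ∃ y : (BPlus p)ˣ, ∀ σ : G, qpHom p (η σ) * σ • (y : BPlus p) = y := by
  obtain ⟨φ, -, hφ⟩ := exists_frobenius (p := p)
  set v : G → ℤ_[p] := fun σ => ⟨η σ, (norm_hom_eq_one hη σ).le⟩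
  have hv : ∀ σ τ, v (σ * τ) = v σ * v τ := fun σ τ => Subtype.ext (map_mul η σ τ)
  have hv1 : v 1 = 1 := Subtype.ext (map_one η)
  set u : ℤ_[p]ˣ := ⟨v φ⁻¹, v φ, by rw [← hv, inv_mul_cancel, hv1],
    by rw [← hv, mul_inv_cancel, hv1]⟩
  obtain ⟨y, hy, hfy, hcoef⟩ := exists_witt_period hφ u
  have hpow : ∀ a, WittVector.frobenius^[a] y = zpHom p ((u : ℤ_[p]) ^ a) * y := fun a => by
    induction a with
    | zero => rw [pow_zero, map_one, one_mul]; rfl
    | succ a ih =>
      rw [Function.iterate_succ_apply', ih, map_mul, frobenius_zpHom, hfy, ← mul_assoc, ← map_mul,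
        ← pow_succ]
  have hcf : ∀ a j, (WittVector.frobenius^[a] y).coeff j = y.coeff j ^ p ^ a := fun a j => by
    induction a with
    | zero => rw [pow_zero, pow_one]; rfl
    | succ a ih =>
      rw [Function.iterate_succ_apply', WittVector.coeff_frobenius_charP, ih, ← pow_mul, ← pow_succ]
  have key : ∀ σ : G, zpHom p (v σ) * ainfGal σ y = y := fun σ => by
    refine WittVector.ext fun j => ?_
    set m := j + 1
    obtain ⟨k₁, hk₁⟩ := exists_urGal_subset
      (W := {τ : G | ‖η τ - 1‖ < ((p : ℝ) ^ m)⁻¹})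
      (isOpen_lt (hη.sub continuous_const).norm continuous_const) (fun τ hτ => by
        show ‖η τ - 1‖ < ((p : ℝ) ^ m)⁻¹
        rw [hI τ hτ, sub_self, norm_zero]
        exact inv_pos.2 (pow_pos (Nat.cast_pos.2 hp.out.pos) m))
    obtain ⟨k₀, hk₀⟩ := hcoef m
    set k := max k₀ k₁
    obtain ⟨a, ha⟩ := exists_pow_frobenius_mem hφ σ k
    have hvv : v σ * (u : ℤ_[p]) ^ a = v ((φ ^ a)⁻¹ * σ) := by
      have e : (u : ℤ_[p]) ^ a = v ((φ ^ a)⁻¹) := by
        rw [← inv_pow]
        clear_value k
        clear ha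
        induction a with
        | zero => rw [pow_zero, pow_zero, hv1]
        | succ a ih => rw [pow_succ, pow_succ, hv, ih]
      rw [e, hv, mul_comm]
    obtain ⟨c, hc⟩ : (p : ℤ_[p]) ^ m ∣ v ((φ ^ a)⁻¹ * σ) - 1 := by
      rw [← Ideal.mem_span_singleton, ← PadicInt.norm_le_pow_iff_mem_span_pow, zpow_neg,
        zpow_natCast]
      exact (hk₁ _ (urGal_antitone (le_max_right _ _) ha) : ‖η _ - 1‖ < _).le
    set T := WittVector.truncate (p := p) (R := OFlat p) m
    have hT : T (zpHom p (v σ) * ainfGal σ y) = T y := by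
      have e1 : T (ainfGal σ y) = T (WittVector.frobenius^[a] y) :=
        TruncatedWittVector.ext fun i => by
          rw [WittVector.coeff_truncate, WittVector.coeff_truncate, hcf]
          exact hk₀ k (le_max_left _ _) σ a ha i i.2
      have e2 : T ((p : AInf p) ^ m) = 0 := TruncatedWittVector.ext fun i => by
        rw [WittVector.coeff_truncate, WittVector.coeff_p_pow_eq_zero p _ i.2.ne,
          TruncatedWittVector.coeff_zero]
      rw [map_mul, e1, hpow, ← map_mul T, ← mul_assoc, ← map_mul (zpHom p), hvv,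
        eq_add_of_sub_eq hc, map_add, map_mul (zpHom p), map_pow, map_natCast, map_one, add_mul,
        one_mul, map_add, map_mul, map_mul, e2, zero_mul, zero_mul, zero_add]
    have h3 := congrArg (fun x : TruncatedWittVector p m (OFlat p) => x.coeff ⟨j, j.lt_succ_self⟩)
      hT
    exact (WittVector.coeff_truncate _ ⟨j, j.lt_succ_self⟩).symm.trans
      (h3.trans (WittVector.coeff_truncate _ _))
  set g : AInf p →+* BPlus p := (toBPlus p).comp (algebraMap (AInf p) (AInfP p))
  obtain ⟨yb, hyb⟩ := hy.map g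
  refine ⟨yb, fun σ => ?_⟩
  have h := congrArg g (key σ)
  rw [map_mul] at h
  rw [show η σ = ((v σ : ℤ_[p]) : ℚ_[p]) from rfl, qpHom_coe, hyb, smul_bplus_def]
  simp only [g, RingHom.comp_apply, bplusGal_toBPlus, ainfPGal_algebraMap]
  exact h

end FA.PadicChar
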