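import Fermat.Agent.BDR.IntegerRing
import Fermat.Agent.TateSen.Untwisted
import Mathlib.FieldTheory.Finite.Basic

/-!
# Roots of unity of order prime to `p` and inertia

Automorphisms of the algebraic closure of `ℚ_p` act on these roots of unity by powers of `p`, and
some automorphism raises all of them to the power `p` and fixes those of `p`-power order.
-/

set_option autoImplicit false
set_option linter.unusedSectionVars false

noncomputable section

open Finset Polynomial UniformSpace FA.TateSen FA.BDR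
open scoped Topology

namespace FA.PadicChar

variable {p : ℕ} [hp : Fact p.Prime]

local notation "Cp" => ℂ_[p]
local notation "Ω" => PadicAlgCl p
local notation "G" => PadicAlgCl p ≃ₐ[ℚ_[p]] PadicAlgCl p

/-- The orders `p ^ k - 1`. -/
def ordUr (p k : ℕ) : ℕ := p ^ k - 1

theorem ordUr_pos {k : ℕ} (hk : 0 < k) : 0 < ordUr p k :=
  Nat.sub_pos_of_lt (one_lt_pow₀ hp.out.one_lt hk.ne')

theorem ordUr_add_one (k : ℕ) : ordUr p k + 1 = p ^ k :=
  Nat.sub_add_cancel (Nat.one_le_pow k p hp.out.pos)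

theorem not_dvd_ordUr {k : ℕ} (hk : 0 < k) : ¬ p ∣ ordUr p k := fun h => by
  have h1 : p ∣ ordUr p k + 1 := by rw [ordUr_add_one]; exact dvd_pow_self p hk.ne'
  exact hp.out.not_dvd_one ((Nat.dvd_add_right h).1 h1)

theorem pow_ordUr_succ {M : Type*} [Monoid M] {z : M} {k : ℕ} (hz : z ^ ordUr p k = 1) :
    z ^ p ^ k = z := by
  rw [← ordUr_add_one, pow_succ, hz, one_mul]

/-- An order prime to `p` divides some `p ^ k - 1`. -/
theorem exists_dvd_ordUr {N : ℕ} (hN : ¬ p ∣ N) : ∃ k, 0 < k ∧ N ∣ ordUr p k := by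
  refine ⟨N.totient, Nat.totient_pos.2 (Nat.pos_of_ne_zero fun h => hN (h ▸ dvd_zero p)), ?_⟩
  exact (Nat.modEq_iff_dvd' (Nat.one_le_pow _ p hp.out.pos)).1
    (Nat.ModEq.pow_totient (hp.out.coprime_iff_not_dvd.2 hN)).symm

variable (p) in
/-- The residue field of `ℂ_p`. -/
abbrev Res : Type := IsLocalRing.ResidueField (OC p)

theorem residue_eq_zero_iff {x : OC p} :
    IsLocalRing.residue (OC p) x = 0 ↔ ‖(x : Cp)‖ < 1 := by
  rw [IsLocalRing.residue_eq_zero_iff, IsLocalRing.mem_maximalIdeal, mem_nonunits_iff]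
  refine ⟨fun h => lt_of_le_of_ne (norm_OC_le x) fun h1 => h ?_, fun h hu => ?_⟩
  · refine isUnit_of_dvd_one ⟨mkOC (x : Cp)⁻¹ (by rw [norm_inv, h1, inv_one]), Subtype.ext ?_⟩
    rw [OneMemClass.coe_one, MulMemClass.coe_mul, coe_mkOC,
      mul_inv_cancel₀ (norm_ne_zero_iff.1 (h1.trans_ne one_ne_zero))]
  · obtain ⟨u, rfl⟩ := hu
    have h2 : ((u : OC p) : Cp) * ((↑u⁻¹ : OC p) : Cp) = 1 := by
      rw [← MulMemClass.coe_mul, Units.mul_inv, OneMemClass.coe_one]
    have h3 := congrArg (‖·‖) h2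
    rw [norm_mul, norm_one] at h3
    nlinarith [norm_OC_le (↑u⁻¹ : OC p), norm_nonneg ((u : OC p) : Cp)]

instance charP_res : CharP (Res p) p := (CharP.charP_iff_prime_eq_zero hp.out).2 (by
  rw [← map_natCast (IsLocalRing.residue (OC p)), residue_eq_zero_iff, coe_natCast_OC]
  exact FA.FontaineWintenberger.norm_p_C_lt)

theorem norm_omega_le_one {z : Ω} {N : ℕ} (hN : 0 < N) (hz : z ^ N = 1) : ‖z‖ ≤ 1 := by
  have h := congrArg (‖·‖) hz
  rw [norm_pow, norm_one] at h
  exact ((pow_eq_one_iff_of_nonneg (norm_nonneg z) hN.ne').1 h).le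

variable (p) in
/-- The integral elements of the algebraic closure. -/
def omegaInt : Subring Ω where
  carrier := {x | ‖x‖ ≤ 1}
  mul_mem' {x y} hx hy := (norm_mul x y).trans_le (mul_le_one₀ hx (norm_nonneg _) hy)
  one_mem' := norm_one.le
  add_mem' {x y} hx hy := (IsUltrametricDist.norm_add_le_max x y).trans (max_le hx hy)
  zero_mem' := norm_zero.trans_le zero_le_one
  neg_mem' {x} hx := (norm_neg x).trans_le hx

variable (p) in
/-- The reduction of the integral elements. -/
def redHom : omegaInt p →+* Res p :=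
  (IsLocalRing.residue (OC p)).comp
    { toFun := fun x => mkOC (((x : Ω) : Cp)) (by rw [Completion.norm_coe]; exact x.2)
      map_one' := Subtype.ext (map_one Completion.coeRingHom)
      map_mul' := fun x y => Subtype.ext (map_mul Completion.coeRingHom (x : Ω) (y : Ω))
      map_zero' := Subtype.ext (map_zero Completion.coeRingHom)
      map_add' := fun x y => Subtype.ext (map_add Completion.coeRingHom (x : Ω) (y : Ω)) }

theorem redHom_eq_zero_iff {x : omegaInt p} : redHom p x = 0 ↔ ‖(x : Ω)‖ < 1 := by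
  rw [redHom, RingHom.comp_apply, residue_eq_zero_iff]
  change ‖((x : Ω) : Cp)‖ < 1 ↔ _
  rw [Completion.norm_coe]

/-- Roots of unity of order prime to `p` are separated by the reduction. -/
theorem root_eq_one_of_red {x : omegaInt p} {N : ℕ} (hN : ¬ p ∣ N) (hx : x ^ N = 1)
    (h : redHom p x = 1) : x = 1 := by
  by_contra hne
  have h1 : (∑ i ∈ range N, x ^ i) * (x - 1) = 0 := by rw [geom_sum_mul, hx, sub_self]
  have h2 : ∑ i ∈ range N, x ^ i = 0 := (mul_eq_zero.1 h1).resolve_right (sub_ne_zero.2 hne)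
  have h3 := congrArg (redHom p) h2
  rw [map_sum, map_zero] at h3
  simp only [map_pow, h, one_pow, sum_const, card_range, nsmul_one] at h3
  exact hN ((CharP.cast_eq_zero_iff (Res p) p N).1 h3)

theorem root_eq_of_red {x y : omegaInt p} {N : ℕ} (hN : ¬ p ∣ N) (hx : x ^ N = 1) (hy : y ^ N = 1)
    (h : redHom p x = redHom p y) : x = y := by
  have hN0 : 0 < N := Nat.pos_of_ne_zero fun h0 => hN (h0 ▸ dvd_zero p)
  have hy' : y * y ^ (N - 1) = 1 := by rw [← pow_succ', Nat.sub_add_cancel hN0, hy]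
  have h1 : x * y ^ (N - 1) = 1 := root_eq_one_of_red hN
    (by rw [mul_pow, hx, ← pow_mul, mul_comm (N - 1), pow_mul, hy, one_pow, one_mul])
    (by rw [map_mul, h, ← map_mul, hy', map_one])
  calc x = x * (y * y ^ (N - 1)) := by rw [hy', mul_one]
    _ = y * (x * y ^ (N - 1)) := by ring
    _ = y := by rw [h1, mul_one]

/-- A root of unity of the algebraic closure as an integral element. -/
def rootInt (z : Ω) {N : ℕ} (hN : 0 < N) (hz : z ^ N = 1) : omegaInt p :=
  ⟨z, norm_omega_le_one hN hz⟩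

theorem exists_primitive_ur {N : ℕ} (hN : 0 < N) : ∃ z : Ω, IsPrimitiveRoot z N := by
  have : NeZero (N : Ω) := ⟨Nat.cast_ne_zero.2 hN.ne'⟩
  exact HasEnoughRootsOfUnity.exists_primitiveRoot Ω N

theorem omega_normal : Normal ℚ_[p] Ω :=
  normal_iff.2 fun y => ⟨Algebra.IsIntegral.isIntegral y, IsAlgClosed.splits _⟩

theorem eq_natCast_of_pow_eq {x : Res p} (hx : x ^ p = x) : ∃ a : ℕ, x = a := by
  have : ∀ y : Res p, y ∈ (⊥ : Subfield (Res p)) → ∃ a : ℕ, y = a := by
    intro y hy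
    have hle : (⊥ : Subfield (Res p)) ≤ (ZMod.castHom (dvd_refl p) (Res p)).fieldRange := bot_le
    obtain ⟨a, ha⟩ := hle hy
    exact ⟨a.val, by rw [← ha, ZMod.castHom_apply, ZMod.natCast_val]⟩
  exact this x ((Subfield.mem_bot_iff_pow_eq_self (F := Res p) (p := p)).2 hx)

/-- **An automorphism acts on the roots of unity of order `p ^ k - 1` by a power of `p`.** -/
theorem exists_pow_action (σ : G) {k : ℕ} (hk : 0 < k) :
    ∃ a : ℕ, ∀ z : Ω, z ^ ordUr p k = 1 → σ z = z ^ p ^ a := by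
  obtain ⟨z, hz⟩ := exists_primitive_ur (p := p) (ordUr_pos (p := p) hk)
  set zi := rootInt z (ordUr_pos hk) hz.pow_eq_one
  set f : (Res p)[X] := ∏ i ∈ range k, (X - C (redHom p zi ^ p ^ i)) with hf
  have hzk : redHom p zi ^ p ^ k = redHom p zi := by
    rw [← map_pow]
    exact congrArg _ (Subtype.ext (pow_ordUr_succ hz.pow_eq_one))
  have hfrob : f.map (frobenius (Res p) p) = f := by
    obtain ⟨k, rfl⟩ := Nat.exists_eq_add_of_le' hk
    have e : f.map (frobenius (Res p) p) =
        ∏ i ∈ range (k + 1), (X - C (redHom p zi ^ p ^ (i + 1))) := by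
      rw [hf, Polynomial.map_prod]
      refine prod_congr rfl fun i _ => ?_
      rw [Polynomial.map_sub, map_X, map_C, frobenius_def, ← pow_mul, ← pow_succ]
    rw [e, hf, prod_range_succ, prod_range_succ' _ k, hzk, pow_zero, pow_one]
  -- the induced automorphism of the integral elements
  set σi : omegaInt p →+* omegaInt p := ((σ : Ω →+* Ω).comp (omegaInt p).subtype).codRestrict
    (omegaInt p) (fun x => (norm_gal σ (x : Ω)).trans_le x.2)
  choose b hb using fun i => eq_natCast_of_pow_eq (x := f.coeff i) (by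
    conv_rhs => rw [← hfrob]
    rw [coeff_map, frobenius_def])
  set F : (omegaInt p)[X] := ∑ i ∈ range (f.natDegree + 1), monomial i ((b i : ℕ) : omegaInt p)
  have hF : F.map (redHom p) = f := by
    rw [Polynomial.map_sum]
    conv_rhs => rw [f.as_sum_range]
    exact sum_congr rfl fun i _ => by rw [map_monomial, map_natCast, hb]
  have hFσ : F.map σi = F := by
    rw [Polynomial.map_sum]
    exact sum_congr rfl fun i _ => by rw [map_monomial, map_natCast]
  have h0 : redHom p (F.eval zi) = 0 := by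
    rw [← eval_map_apply, hF, hf, eval_prod]
    exact prod_eq_zero (mem_range.2 hk) (by simp)
  have h1 : redHom p (F.eval (σi zi)) = 0 := by
    rw [← hFσ, eval_map_apply, redHom_eq_zero_iff]
    exact (norm_gal σ _).trans_lt (redHom_eq_zero_iff.1 h0)
  rw [← eval_map_apply, hF, hf, eval_prod, prod_eq_zero_iff] at h1
  obtain ⟨a, -, ha⟩ := h1
  rw [eval_sub, eval_X, eval_C, sub_eq_zero, ← map_pow] at ha
  have h2 : σi zi = zi ^ p ^ a := root_eq_of_red (not_dvd_ordUr hk)
    (by rw [← map_pow, show zi ^ ordUr p k = 1 from Subtype.ext hz.pow_eq_one, map_one])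
    (by rw [← pow_mul, mul_comm, pow_mul,
      show zi ^ ordUr p k = 1 from Subtype.ext hz.pow_eq_one, one_pow]) ha
  have h3 : σ z = z ^ p ^ a := congrArg Subtype.val h2
  refine ⟨a, fun w hw => ?_⟩
  have : NeZero (ordUr p k) := ⟨(ordUr_pos hk).ne'⟩
  obtain ⟨i, -, rfl⟩ := hz.eq_pow_of_pow_eq_one hw
  rw [map_pow, h3, pow_right_comm]

/-- The integral elements of a level are congruent to natural numbers. -/
theorem exists_natCast_near {n : ℕ} {x : Ω} (hx : x ∈ cycLevel p n) (h : ‖x‖ ≤ 1) :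
    ∃ a : ℕ, ‖x - (a : Ω)‖ < 1 := by
  obtain ⟨z, hz⟩ := exists_primitive p (n + 1)
  obtain ⟨c, rfl⟩ := exists_repr hz (cycLevel_mono n.le_succ hx)
  have hπ := norm_sub_one_pos (one_lt_pow₀ hp.out.one_lt n.succ_ne_zero) hz
  have hπ1 := norm_sub_one_lt norm_p_lt_one hz
  have hc : ∀ i < deg p n, ‖c i‖ ≤ 1 := fun i hi => by
    have h1 := (norm_term_le hz c hi).trans h
    rw [norm_mul, norm_pow, PadicAlgCl.norm_extends] at h1
    rw [← zpow_zero (p : ℝ), Padic.norm_le_pow_iff_norm_lt_pow_add_one, zero_add, zpow_one]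
    by_contra hge
    rw [not_lt] at hge
    have h2 : ‖z - 1‖ ^ deg p n < ‖z - 1‖ ^ i := pow_lt_pow_right_of_lt_one₀ hπ hπ1 hi
    rw [deg, norm_sub_one_pow_totient hz, norm_p] at h2
    have hp0 : (0 : ℝ) < p := Nat.cast_pos.2 hp.out.pos
    have h3 := mul_lt_mul' hge h2 (inv_nonneg.2 hp0.le) (hp0.trans_le hge)
    rw [mul_inv_cancel₀ hp0.ne'] at h3
    linarith
  set x0 : ℤ_[p] := ⟨c 0, hc 0 (deg_pos n)⟩
  set a := PadicInt.zmodRepr x0
  refine ⟨a, ?_⟩
  obtain ⟨d, hd⟩ := Nat.exists_eq_add_of_le' (deg_pos (p := p) n)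
  rw [hd, sum_range_succ', pow_zero, mul_one, add_sub_assoc]
  refine (IsUltrametricDist.norm_add_le_max _ _).trans_lt (max_lt ?_ ?_)
  · refine (IsUltrametricDist.norm_sum_le_of_forall_le_of_nonneg hπ.le fun i hi => ?_).trans_lt hπ1
    rw [norm_mul, norm_pow, PadicAlgCl.norm_extends, pow_succ]
    refine (mul_le_of_le_one_left (by positivity) (hc _ (by rw [mem_range] at hi; omega))).trans ?_
    exact mul_le_of_le_one_left hπ.le (pow_le_one₀ hπ.le hπ1.le)
  · have h2 := PadicInt.sub_zmodRepr_mem x0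
    rw [PadicInt.maximalIdeal_eq_span_p, Ideal.mem_span_singleton,
      ← PadicInt.norm_lt_one_iff_dvd, PadicInt.norm_def, PadicInt.coe_sub,
      PadicInt.coe_natCast] at h2
    rw [show (a : Ω) = ((a : ℚ_[p]) : Ω) from (map_natCast (algebraMap ℚ_[p] Ω) a).symm,
      show ((c 0 : ℚ_[p]) : Ω) - ((a : ℚ_[p]) : Ω) = ((c 0 - (a : ℚ_[p]) : ℚ_[p]) : Ω) from
        (map_sub (algebraMap ℚ_[p] Ω) _ _).symm, PadicAlgCl.norm_extends]
    exact h2

/-- Some automorphism fixing a level raises the roots of unity of order `p ^ k - 1` to the power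
`p`. -/
theorem exists_frobenius_level (n : ℕ) {k : ℕ} (hk : 0 < k) :
    ∃ σ ∈ levelGal p n, ∀ z : Ω, z ^ ordUr p k = 1 → σ z = z ^ p := by
  obtain ⟨z, hz⟩ := exists_primitive_ur (p := p) (ordUr_pos (p := p) hk)
  set L := cycLevel p n
  have hint : IsIntegral L z := Algebra.IsIntegral.isIntegral z
  set m := minpoly L z
  have : Normal L Ω := Normal.tower_top_of_normal ℚ_[p] L Ω (h := omega_normal)
  set zi := rootInt z (ordUr_pos hk) hz.pow_eq_one
  obtain ⟨s, hs⟩ : ∃ s, m.map (algebraMap L Ω) = (Multiset.map (fun r => X - C r) s).prod :=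
    ⟨_, (IsAlgClosed.splits (m.map (algebraMap L Ω))).eq_prod_roots_of_monic
      ((minpoly.monic hint).map _)⟩
  have hroot : ∀ r ∈ s, r ^ ordUr p k = 1 := fun r hr => by
    have h1 : (m.map (algebraMap L Ω)).eval r = 0 := by
      rw [hs, eval_multiset_prod, Multiset.prod_eq_zero_iff, Multiset.map_map, Multiset.mem_map]
      exact ⟨r, hr, by simp⟩
    have hd : m ∣ X ^ ordUr p k - 1 := minpoly.dvd _ _ (by simp [hz.pow_eq_one])
    have h2 := eval_dvd (x := r) (map_dvd (mapRingHom (algebraMap L Ω)) hd)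
    rw [coe_mapRingHom, h1, zero_dvd_iff] at h2
    simpa [sub_eq_zero] using h2
  set si : Multiset (omegaInt p) := s.attach.map fun r =>
    rootInt r.1 (ordUr_pos hk) (hroot r.1 r.2)
  set M : (omegaInt p)[X] := (si.map fun r => X - C r).prod
  have hM : M.map (omegaInt p).subtype = m.map (algebraMap L Ω) := by
    rw [hs, Polynomial.map_multiset_prod, Multiset.map_map, Multiset.map_map]
    conv_rhs => rw [← s.attach_map_val, Multiset.map_map]
    refine congrArg _ (Multiset.map_congr rfl fun r _ => ?_)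
    simp [rootInt]
  have hcoef : ∀ i, redHom p (M.coeff i) ^ p = redHom p (M.coeff i) := fun i => by
    have hi : ((M.coeff i : omegaInt p) : Ω) = algebraMap L Ω (m.coeff i) := by
      have := congrArg (fun q => q.coeff i) hM
      simpa only [coeff_map, Subring.subtype_apply] using this
    obtain ⟨a, ha⟩ := exists_natCast_near (n := n) (x := (M.coeff i : Ω))
      (by rw [hi]; exact (m.coeff i).2) (M.coeff i).2
    have h1 : redHom p (M.coeff i - (a : omegaInt p)) = 0 :=
      redHom_eq_zero_iff.2 (by simpa using ha)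
    rw [map_sub, sub_eq_zero, map_natCast] at h1
    rw [h1, ← frobenius_def, map_natCast]
  have hfix : (M.map (redHom p)).map (frobenius (Res p) p) = M.map (redHom p) :=
    Polynomial.ext fun i => by rw [coeff_map, coeff_map, frobenius_def, hcoef]
  have h0 : M.eval zi = 0 := Subtype.ext (by
    rw [ZeroMemClass.coe_zero, ← Subring.subtype_apply, ← eval_map_apply, hM, eval_map,
      ← aeval_def]
    exact minpoly.aeval L z)
  have h1 : redHom p (M.eval (zi ^ p)) = 0 := by
    rw [← eval_map_apply, map_pow, ← frobenius_def, ← hfix, eval_map_apply, eval_map_apply, h0,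
      map_zero, map_zero]
  rw [show M.eval (zi ^ p) = (si.map fun r => zi ^ p - r).prod by
    simp [M, eval_multiset_prod, Multiset.map_map], map_multiset_prod, Multiset.prod_eq_zero_iff,
    Multiset.map_map, Multiset.mem_map] at h1
  obtain ⟨r, hr, hr0⟩ := h1
  rw [Function.comp_apply, map_sub, sub_eq_zero] at hr0
  obtain ⟨r', -, rfl⟩ := Multiset.mem_map.1 hr
  have h2 : zi ^ p = rootInt r'.1 (ordUr_pos hk) (hroot r'.1 r'.2) :=
    root_eq_of_red (not_dvd_ordUr hk)
      (by rw [← pow_mul, mul_comm, pow_mul,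
        show zi ^ ordUr p k = 1 from Subtype.ext hz.pow_eq_one, one_pow])
      (Subtype.ext (hroot r'.1 r'.2)) hr0
  have h3 : aeval (z ^ p) m = 0 := by
    rw [aeval_def, ← eval_map, hs, eval_multiset_prod, Multiset.prod_eq_zero_iff,
      Multiset.map_map, Multiset.mem_map]
    refine ⟨r'.1, r'.2, ?_⟩
    simp [show z ^ p = r'.1 from congrArg Subtype.val h2]
  obtain ⟨σ, hσ⟩ := minpoly.exists_algEquiv_of_root' hint.isAlgebraic h3
  refine ⟨σ.restrictScalars ℚ_[p], ?_, fun w hw => ?_⟩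
  · rw [levelGal, IntermediateField.mem_fixingSubgroup_iff]
    exact fun x hx => σ.commutes ⟨x, hx⟩
  · have : NeZero (ordUr p k) := ⟨(ordUr_pos hk).ne'⟩
    obtain ⟨i, -, rfl⟩ := hz.eq_pow_of_pow_eq_one hw
    rw [AlgEquiv.restrictScalars_apply, map_pow, hσ, pow_right_comm]

variable (p) in
/-- **The inertia subgroup**: the automorphisms fixing the roots of unity of order prime to `p`. -/
def inertiaGal : Subgroup G :=
  (IntermediateField.adjoin ℚ_[p] {z : Ω | ∃ N, ¬ p ∣ N ∧ z ^ N = 1}).fixingSubgroup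

theorem mem_inertiaGal {σ : G} :
    σ ∈ inertiaGal p ↔ ∀ (N : ℕ) (z : Ω), ¬ p ∣ N → z ^ N = 1 → σ z = z := by
  refine ⟨fun h N z hN hz => fixed_of_le h (IntermediateField.subset_adjoin _ _ ⟨N, hN, hz⟩),
    fun h => ?_⟩
  rw [inertiaGal, IntermediateField.mem_fixingSubgroup_iff]
  intro x hx
  induction hx using IntermediateField.adjoin_induction with
  | mem x hx => obtain ⟨N, hN, hz⟩ := hx; exact h N x hN hz
  | algebraMap c => exact σ.commutes c
  | add x y _ _ h1 h2 => rw [map_add, h1, h2]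
  | inv x _ h1 => rw [map_inv₀, h1]
  | mul x y _ _ h1 h2 => rw [map_mul, h1, h2]

variable (p) in
/-- The roots of unity of order `p ^ k! - 1` are fixed. -/
def urGal (k : ℕ) : Subgroup G :=
  (IntermediateField.adjoin ℚ_[p] {z : Ω | z ^ ordUr p k.factorial = 1}).fixingSubgroup

theorem mem_urGal {k : ℕ} {σ : G} :
    σ ∈ urGal p k ↔ ∀ z : Ω, z ^ ordUr p k.factorial = 1 → σ z = z := by
  refine ⟨fun h z hz => fixed_of_le h (IntermediateField.subset_adjoin _ _ hz), fun h => ?_⟩
  rw [urGal, IntermediateField.mem_fixingSubgroup_iff]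
  intro x hx
  induction hx using IntermediateField.adjoin_induction with
  | mem x hx => exact h x hx
  | algebraMap c => exact σ.commutes c
  | add x y _ _ h1 h2 => rw [map_add, h1, h2]
  | inv x _ h1 => rw [map_inv₀, h1]
  | mul x y _ _ h1 h2 => rw [map_mul, h1, h2]

theorem ordUr_dvd {a b : ℕ} (h : a ∣ b) : ordUr p a ∣ ordUr p b :=
  Nat.pow_sub_one_dvd_pow_sub_one p h

theorem inertiaGal_le_urGal (k : ℕ) : inertiaGal p ≤ urGal p k := fun _ hσ =>
  mem_urGal.2 fun z hz => mem_inertiaGal.1 hσ _ z (not_dvd_ordUr k.factorial_pos) hz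

theorem urGal_antitone {a b : ℕ} (h : a ≤ b) : urGal p b ≤ urGal p a := fun _ hσ =>
  mem_urGal.2 fun z hz => mem_urGal.1 hσ z (by
    obtain ⟨c, hc⟩ := ordUr_dvd (p := p) (Nat.factorial_dvd_factorial h)
    rw [hc, pow_mul, hz, one_pow])

theorem mem_inertiaGal_iff_urGal {σ : G} : σ ∈ inertiaGal p ↔ ∀ k, σ ∈ urGal p k := by
  refine ⟨fun h k => inertiaGal_le_urGal k h, fun h => mem_inertiaGal.2 fun N z hN hz => ?_⟩
  obtain ⟨k, hk, hkd⟩ := exists_dvd_ordUr hN
  obtain ⟨c, hc⟩ := hkd.trans (ordUr_dvd (p := p) (Nat.dvd_factorial hk le_rfl))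
  exact mem_urGal.1 (h k) z (by rw [hc, pow_mul, hz, one_pow])

theorem isClosed_urGal (k : ℕ) : IsClosed (urGal p k : Set G) :=
  InfiniteGalois.fixingSubgroup_isClosed _

theorem isClosed_inertiaGal : IsClosed (inertiaGal p : Set G) :=
  InfiniteGalois.fixingSubgroup_isClosed _

/-- Open sets around inertia contain some `urGal k`. -/
theorem exists_urGal_subset {W : Set G} (hW : IsOpen W) (h : ∀ σ ∈ inertiaGal p, σ ∈ W) :
    ∃ k, ∀ σ ∈ urGal p k, σ ∈ W := by
  obtain ⟨k, hk⟩ := exists_subset_nhds_of_compactSpace (V := fun k => (urGal p k : Set G))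
    (Antitone.directed_ge fun a b hab => urGal_antitone hab) isClosed_urGal
    fun x hx => hW.mem_nhds (h x (mem_inertiaGal_iff_urGal.2 fun k => Set.mem_iInter.1 hx k))
  exact ⟨k, fun σ hσ => hk hσ⟩

theorem isClosed_apply_eq (a b : Ω) : IsClosed {σ : G | σ a = b} := by
  refine isOpen_compl_iff.1 (isOpen_iff_mem_nhds.2 fun σ hσ => ?_)
  filter_upwards [eventually_apply_eq σ a] with τ hτ
  exact fun h => hσ (hτ.symm.trans h)

/-- **The Frobenius**: it raises the roots of unity of order prime to `p` to the power `p` and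
fixes those of `p`-power order. -/
theorem exists_frobenius : ∃ φ : G, chi p φ = 1 ∧
    ∀ (N : ℕ) (z : Ω), ¬ p ∣ N → z ^ N = 1 → φ z = z ^ p := by
  set V : ℕ → Set G := fun k => (levelGal p k : Set G) ∩
    ⋂ z ∈ {z : Ω | z ^ ordUr p k.factorial = 1}, {σ : G | σ z = z ^ p}
  have hclosed : ∀ k, IsClosed (V k) := fun k =>
    (InfiniteGalois.fixingSubgroup_isClosed _).inter
      (isClosed_biInter fun z _ => isClosed_apply_eq z (z ^ p))
  have hne : ∀ k, (V k).Nonempty := fun k => by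
    obtain ⟨σ, hσ, h⟩ := exists_frobenius_level (p := p) k k.factorial_pos
    exact ⟨σ, hσ, Set.mem_iInter₂.2 h⟩
  have hdec : ∀ k, V (k + 1) ⊆ V k := fun k σ ⟨h1, h2⟩ =>
    ⟨IntermediateField.fixingSubgroup_antitone (cycLevel_mono k.le_succ) h1,
      Set.mem_iInter₂.2 fun z hz => Set.mem_iInter₂.1 h2 z (by
        obtain ⟨c, hc⟩ := ordUr_dvd (p := p) (Nat.factorial_dvd_factorial k.le_succ)
        rw [Set.mem_ofPred_eq, hc, pow_mul, hz, one_pow])⟩
  obtain ⟨φ, hφ⟩ := IsCompact.nonempty_iInter_of_sequence_nonempty_isCompact_isClosed V hdec hne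
    (hclosed 0).isCompact hclosed
  have hφ' := Set.mem_iInter.1 hφ
  refine ⟨φ, (mem_fix_cycInf_iff φ).1 ?_, fun N z hN hz => ?_⟩
  · rw [IntermediateField.mem_fixingSubgroup_iff]
    intro x hx
    obtain ⟨n, hn⟩ := mem_cycInf.1 hx
    exact fixed_of_le (hφ' n).1 hn
  · obtain ⟨k, hk, hkd⟩ := exists_dvd_ordUr hN
    obtain ⟨c, hc⟩ := hkd.trans (ordUr_dvd (p := p) (Nat.dvd_factorial hk le_rfl))
    exact Set.mem_iInter₂.1 (hφ' k).2 z (by rw [Set.mem_ofPred_eq, hc, pow_mul, hz, one_pow])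

theorem pow_frobenius_apply {φ : G}
    (hφ : ∀ (N : ℕ) (z : Ω), ¬ p ∣ N → z ^ N = 1 → φ z = z ^ p) {N : ℕ} (hN : ¬ p ∣ N) {z : Ω}
    (hz : z ^ N = 1) : ∀ a : ℕ, (φ ^ a) z = z ^ p ^ a
  | 0 => by rw [pow_zero, pow_zero, pow_one]; rfl
  | a + 1 => by
    rw [pow_succ', AlgEquiv.mul_apply, pow_frobenius_apply hφ hN hz a, map_pow, hφ N z hN hz,
      ← pow_mul, ← pow_succ']

/-- Every automorphism is on each finite level a power of the Frobenius. -/
theorem exists_pow_frobenius_mem {φ : G}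
    (hφ : ∀ (N : ℕ) (z : Ω), ¬ p ∣ N → z ^ N = 1 → φ z = z ^ p) (σ : G) (k : ℕ) :
    ∃ a : ℕ, (φ ^ a)⁻¹ * σ ∈ urGal p k := by
  obtain ⟨a, ha⟩ := exists_pow_action σ k.factorial_pos
  refine ⟨a, mem_urGal.2 fun z hz => ?_⟩
  rw [AlgEquiv.mul_apply, ha z hz, ← pow_frobenius_apply hφ (not_dvd_ordUr k.factorial_pos) hz,
    ← AlgEquiv.mul_apply, inv_mul_cancel, AlgEquiv.one_apply]

/-- Some element of inertia has the same cyclotomic character. -/
theorem exists_mem_inertia_chi (σ : G) : ∃ τ ∈ inertiaGal p, chi p τ = chi p σ := by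
  obtain ⟨φ, hφ1, hφ⟩ := exists_frobenius (p := p)
  set V : ℕ → Set G := fun k => {τ | chi p τ = chi p σ} ∩ urGal p k
  have hclosed : ∀ k, IsClosed (V k) := fun k =>
    (isClosed_eq continuous_chi continuous_const).inter (isClosed_urGal k)
  have hne : ∀ k, (V k).Nonempty := fun k => by
    obtain ⟨a, ha⟩ := exists_pow_frobenius_mem hφ σ k
    exact ⟨_, by simp only [Set.mem_ofPred_eq, map_mul, map_inv, map_pow, hφ1, one_pow, inv_one,
      one_mul], ha⟩
  obtain ⟨τ, hτ⟩ := IsCompact.nonempty_iInter_of_sequence_nonempty_isCompact_isClosed V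
    (fun k => fun x hx => ⟨hx.1, urGal_antitone k.le_succ hx.2⟩) hne (hclosed 0).isCompact hclosed
  have hτ' := Set.mem_iInter.1 hτ
  exact ⟨τ, mem_inertiaGal_iff_urGal.2 fun k => (hτ' k).2, (hτ' 0).1⟩

end FA.PadicChar
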