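import Fermat.Agent.PadicCharacters.Periods
import Fermat.Agent.LocalCFT.KroneckerWeber

/-!
# The structure of the characters of the Galois group of `ℚ_p`

By the local theorem of Kronecker and Weber a character is determined by the action on the roots
of unity, so it is an unramified character times one that factors through the cyclotomic character.
-/

set_option autoImplicit false
set_option linter.unusedSectionVars false

noncomputable section

open UniformSpace FA.TateSen FA.BDR

namespace FA.PadicChar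

variable {p : ℕ} [hp : Fact p.Prime]

local notation "Ω" => PadicAlgCl p
local notation "G" => PadicAlgCl p ≃ₐ[ℚ_[p]] PadicAlgCl p

/-- The elements with value near one. -/
def nearKer {η : G →* ℚ_[p]} (hη : Continuous η) {ε : ℝ} (hε : 0 < ε) : Subgroup G where
  carrier := {σ | ‖η σ - 1‖ < ε}
  one_mem' := by simpa using hε
  mul_mem' := fun {σ τ} hσ hτ => by
    simp only [Set.mem_ofPred_eq, map_mul] at *
    rw [show η σ * η τ - 1 = η σ * (η τ - 1) + (η σ - 1) by ring]
    refine (IsUltrametricDist.norm_add_le_max _ _).trans_lt (max_lt ?_ hσ)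
    rwa [norm_mul, norm_hom_eq_one hη, one_mul]
  inv_mem' := fun {σ} hσ => by
    simp only [Set.mem_ofPred_eq] at *
    have h : η σ⁻¹ * η σ = 1 := by rw [← map_mul, inv_mul_cancel, map_one]
    rw [show η σ⁻¹ - 1 = -(η σ⁻¹ * (η σ - 1)) by rw [mul_sub, h]; ring, norm_neg, norm_mul,
      norm_hom_eq_one hη, one_mul]
    exact hσ

theorem mem_nearKer {η : G →* ℚ_[p]} {hη : Continuous η} {ε : ℝ} {hε : 0 < ε} {σ : G} :
    σ ∈ nearKer hη hε ↔ ‖η σ - 1‖ < ε := Iff.rfl

/-- **A character is trivial on the automorphisms fixing every root of unity.** -/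
theorem eq_one_of_fix_roots {η : G →* ℚ_[p]} (hη : Continuous η) {σ : G}
    (h : ∀ (N : ℕ) (z : Ω), 0 < N → z ^ N = 1 → σ z = z) : η σ = 1 := by
  rw [← sub_eq_zero, ← norm_le_zero_iff]
  refine le_of_forall_pos_le_add fun ε hε => ?_
  rw [zero_add]
  set U := nearKer hη hε
  have hUo : IsOpen (U : Set G) := isOpen_lt (hη.sub continuous_const).norm continuous_const
  have hUn : U.Normal := ⟨fun a ha g => by
    rw [mem_nearKer] at ha ⊢
    rwa [map_mul, map_mul, mul_right_comm, ← map_mul, mul_inv_cancel, map_one, one_mul]⟩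
  have : Normal ℚ_[p] Ω := omega_normal
  have : IsGalois ℚ_[p] Ω := ⟨⟩
  set E := IntermediateField.fixedField U
  have hE : E.fixingSubgroup = U :=
    InfiniteGalois.fixingSubgroup_fixedField ⟨U, U.isClosed_of_isOpen hUo⟩
  have : FiniteDimensional ℚ_[p] E := (InfiniteGalois.isOpen_iff_finite E).1 (by rw [hE]; exact hUo)
  have : IsGalois ℚ_[p] E := (InfiniteGalois.normal_iff_isGalois E).1 (by rw [hE]; exact hUn)
  have : IsMulCommutative (E ≃ₐ[ℚ_[p]] E) := ⟨⟨fun x y => by
    obtain ⟨a, rfl⟩ := AlgEquiv.restrictNormalHom_surjective (F := ℚ_[p]) (K₁ := E) Ω x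
    obtain ⟨b, rfl⟩ := AlgEquiv.restrictNormalHom_surjective (F := ℚ_[p]) (K₁ := E) Ω y
    rw [← map_mul, ← map_mul, ← inv_mul_eq_one, ← map_inv, ← map_mul, ← MonoidHom.mem_ker,
      IntermediateField.restrictNormalHom_ker, hE, mem_nearKer]
    rw [show η ((a * b)⁻¹ * (b * a)) = 1 by
      rw [map_mul, map_mul η b a, mul_comm (η b), ← map_mul η a b, ← map_mul, inv_mul_cancel,
        map_one], sub_self, norm_zero]
    exact hε⟩⟩
  obtain ⟨N, hN, ⟨j⟩⟩ := FA.LocalCFT.exists_algHom_cyclotomic_padic p E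
  have : NeZero N := ⟨hN.ne'⟩
  have : FiniteDimensional ℚ_[p] (CyclotomicField N ℚ_[p]) :=
    IsCyclotomicExtension.finiteDimensional {N} ℚ_[p] _
  let k : CyclotomicField N ℚ_[p] →ₐ[ℚ_[p]] Ω := IsAlgClosed.lift
  have hfix : ∀ x : CyclotomicField N ℚ_[p], σ (k x) = k x := fun x => by
    have hx := IsCyclotomicExtension.adjoin_roots (S := {N}) (A := ℚ_[p]) x
    induction hx using Algebra.adjoin_induction with
    | mem x hx =>
      obtain ⟨n, hn, hn0, hxn⟩ := hx
      exact h n _ (Nat.pos_of_ne_zero hn0) (by rw [← map_pow, hxn, map_one])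
    | algebraMap c => rw [k.commutes, σ.commutes]
    | add x y _ _ h1 h2 => rw [map_add, map_add, h1, h2]
    | mul x y _ _ h1 h2 => rw [map_mul, map_mul, h1, h2]
  have hσU : σ ∈ U := by
    rw [← hE, IntermediateField.mem_fixingSubgroup_iff]
    intro x hx
    obtain ⟨y, hy⟩ : x ∈ (k.comp j).fieldRange := by
      rw [AlgHom.fieldRange_of_normal]; exact hx
    rw [← hy]
    exact hfix (j y)
  exact (mem_nearKer.1 hσU).le

/-- Two elements of inertia with the same cyclotomic character have the same value. -/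
theorem eq_of_inertia_chi {η : G →* ℚ_[p]} (hη : Continuous η) {τ τ' : G} (hτ : τ ∈ inertiaGal p)
    (hτ' : τ' ∈ inertiaGal p) (h : chi p τ = chi p τ') : η τ = η τ' := by
  have hc : chi p (τ⁻¹ * τ') = 1 := by rw [map_mul, map_inv, h, inv_mul_cancel]
  have h1 : η (τ⁻¹ * τ') = 1 := eq_one_of_fix_roots hη fun N z hN hz => by
    set σ := τ⁻¹ * τ'
    obtain ⟨a, M, hM, rfl⟩ := Nat.exists_eq_pow_mul_and_not_dvd hN.ne' p hp.out.ne_one
    have hz0 : z ≠ 0 := fun h0 => by
      rw [h0, zero_pow hN.ne'] at hz; exact zero_ne_one hz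
    have e1 : σ z ^ p ^ a = z ^ p ^ a := by
      rw [← map_pow]
      exact mem_inertiaGal.1 (mul_mem (inv_mem hτ) hτ') M _ hM (by rw [← pow_mul, hz])
    have e2 : σ z ^ M = z ^ M := by
      rw [← map_pow]
      exact fixed_of_le ((mem_fix_cycInf_iff σ).2 hc) (cycLevel_le_cycInf a
        (IntermediateField.subset_adjoin _ _
          (show (z ^ M) ^ p ^ a = 1 by rw [← pow_mul, mul_comm, hz])))
    have h2 := (pow_gcd_eq_one (a := σ z / z) (m := p ^ a) (n := M)).2
      ⟨by rw [div_pow, e1, div_self (pow_ne_zero _ hz0)],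
        by rw [div_pow, e2, div_self (pow_ne_zero _ hz0)]⟩
    rw [Nat.Coprime.gcd_eq_one ((hp.out.coprime_iff_not_dvd.2 hM).pow_left a), pow_one] at h2
    exact (div_eq_one_iff_eq hz0).1 h2
  calc η τ = η τ * η (τ⁻¹ * τ') := by rw [h1, mul_one]
    _ = η τ' := by rw [← map_mul, mul_inv_cancel_left]

/-- An element of inertia with the same cyclotomic character. -/
def inertiaLift (σ : G) : G := (exists_mem_inertia_chi σ).choose

theorem inertiaLift_mem (σ : G) : inertiaLift σ ∈ inertiaGal p :=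
  (exists_mem_inertia_chi σ).choose_spec.1

theorem chi_inertiaLift (σ : G) : chi p (inertiaLift σ) = chi p σ :=
  (exists_mem_inertia_chi σ).choose_spec.2

/-- The part of a character that factors through the cyclotomic character. -/
def cycPart {η : G →* ℚ_[p]} (hη : Continuous η) : G →* ℚ_[p] where
  toFun σ := η (inertiaLift σ)
  map_one' := (eq_of_inertia_chi hη (inertiaLift_mem 1) (one_mem _)
    (by rw [chi_inertiaLift])).trans (map_one η)
  map_mul' σ τ := (eq_of_inertia_chi hη (inertiaLift_mem _)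
    (mul_mem (inertiaLift_mem σ) (inertiaLift_mem τ))
    (by rw [map_mul, chi_inertiaLift, chi_inertiaLift, chi_inertiaLift, map_mul])).trans
      (map_mul η _ _)

theorem cycPart_apply {η : G →* ℚ_[p]} (hη : Continuous η) (σ : G) :
    cycPart hη σ = η (inertiaLift σ) := rfl

theorem cycPart_inertia {η : G →* ℚ_[p]} (hη : Continuous η) {σ : G} (hσ : σ ∈ inertiaGal p) :
    cycPart hη σ = η σ :=
  eq_of_inertia_chi hη (inertiaLift_mem σ) hσ (chi_inertiaLift σ)

theorem cycPart_congr {η : G →* ℚ_[p]} (hη : Continuous η) {σ τ : G} (h : chi p σ = chi p τ) :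
    cycPart hη σ = cycPart hη τ :=
  eq_of_inertia_chi hη (inertiaLift_mem σ) (inertiaLift_mem τ)
    (by rw [chi_inertiaLift, chi_inertiaLift, h])

theorem continuous_cycPart {η : G →* ℚ_[p]} (hη : Continuous η) : Continuous (cycPart hη) := by
  refine continuous_iff_isClosed.2 fun S hS => ?_
  have e : cycPart hη ⁻¹' S = chi p ⁻¹' (chi p '' ((inertiaGal p : Set G) ∩ η ⁻¹' S)) := by
    ext σ
    refine ⟨fun hσ => ⟨inertiaLift σ, ⟨inertiaLift_mem σ, hσ⟩, chi_inertiaLift σ⟩, ?_⟩
    rintro ⟨τ, ⟨hτ, hτS⟩, he⟩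
    rw [Set.mem_preimage, cycPart_congr hη he.symm, cycPart_inertia hη hτ]
    exact hτS
  rw [e]
  exact (((isClosed_inertiaGal.inter (hS.preimage hη)).isCompact.image
    continuous_chi).isClosed).preimage continuous_chi

/-- The unramified part. -/
def urPart {η : G →* ℚ_[p]} (hη : Continuous η) : G →* ℚ_[p] where
  toFun σ := η σ * cycPart hη σ⁻¹
  map_one' := by rw [inv_one, map_one, map_one, one_mul]
  map_mul' σ τ := by
    rw [map_mul, mul_inv_rev, map_mul]
    ring

theorem urPart_mul_cycPart {η : G →* ℚ_[p]} (hη : Continuous η) (σ : G) :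
    urPart hη σ * cycPart hη σ = η σ := by
  show η σ * cycPart hη σ⁻¹ * cycPart hη σ = η σ
  rw [mul_assoc, ← map_mul (cycPart hη), inv_mul_cancel, map_one, mul_one]

theorem urPart_inertia {η : G →* ℚ_[p]} (hη : Continuous η) {σ : G} (hσ : σ ∈ inertiaGal p) :
    urPart hη σ = 1 := by
  show η σ * cycPart hη σ⁻¹ = 1
  rw [cycPart_inertia hη (inv_mem hσ), ← map_mul, mul_inv_cancel, map_one]

theorem continuous_urPart {η : G →* ℚ_[p]} (hη : Continuous η) : Continuous (urPart hη) :=
  hη.mul ((continuous_cycPart hη).comp continuous_inv)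

end FA.PadicChar
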